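/-
helper8 (T20): Fredholm index of linear maps between (possibly infinite-dimensional)
vector spaces: finite-dimensional kernel and cokernel; additivity under composition and
"two out of three".  Pure linear algebra, Mathlib only.
-/
import Mathlib

set_option autoImplicit false

namespace Fermat.Agent.S20_helper8

open Module

variable {k U V W : Type*} [Field k] [AddCommGroup U] [Module k U] [AddCommGroup V] [Module k V]
  [AddCommGroup W] [Module k W]

/-- A linear map is Fredholm if its kernel and cokernel are finite-dimensional. -/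
structure IsFredholm (f : U →ₗ[k] V) : Prop where
  ker_fin : FiniteDimensional k (LinearMap.ker f)
  coker_fin : FiniteDimensional k (V ⧸ LinearMap.range f)

/-- The index `dim ker - dim coker` (junk if the map is not Fredholm). -/
noncomputable def ind (f : U →ₗ[k] V) : ℤ :=
  (finrank k (LinearMap.ker f) : ℤ) - (finrank k (V ⧸ LinearMap.range f) : ℤ)

section sixTerm

variable (f : U →ₗ[k] V) (g : V →ₗ[k] W)

/-- `α : ker (g ∘ f) → ker g`, the restriction of `f`. -/
def sixAlpha : LinearMap.ker (g ∘ₗ f) →ₗ[k] LinearMap.ker g :=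
  (f.domRestrict (LinearMap.ker (g ∘ₗ f))).codRestrict (LinearMap.ker g) (by
    intro x
    show g (f x) = 0
    exact x.2)

/-- `β : ker g → V ⧸ range f`. -/
def sixBeta : LinearMap.ker g →ₗ[k] V ⧸ LinearMap.range f :=
  (LinearMap.range f).mkQ ∘ₗ (LinearMap.ker g).subtype

/-- `γ : V ⧸ range f → W ⧸ range (g ∘ f)`, induced by `g`. -/
def sixGamma : V ⧸ LinearMap.range f →ₗ[k] W ⧸ LinearMap.range (g ∘ₗ f) :=
  Submodule.mapQ _ _ g (by
    rintro _ ⟨u, rfl⟩
    exact ⟨u, rfl⟩)

/-- `δ : W ⧸ range (g ∘ f) → W ⧸ range g`, the natural surjection. -/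
def sixDelta : W ⧸ LinearMap.range (g ∘ₗ f) →ₗ[k] W ⧸ LinearMap.range g :=
  Submodule.mapQ _ _ LinearMap.id (by
    rintro _ ⟨u, rfl⟩
    exact ⟨f u, rfl⟩)

@[simp] lemma sixAlpha_coe (x : LinearMap.ker (g ∘ₗ f)) : ((sixAlpha f g x : LinearMap.ker g) : V) = f x := rfl

@[simp] lemma sixBeta_apply (x : LinearMap.ker g) :
    sixBeta f g x = Submodule.Quotient.mk (x : V) := rfl

@[simp] lemma sixGamma_mk (v : V) :
    sixGamma f g (Submodule.Quotient.mk v) = Submodule.Quotient.mk (g v) := rfl

@[simp] lemma sixDelta_mk (w : W) :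
    sixDelta f g (Submodule.Quotient.mk w) = Submodule.Quotient.mk w := rfl

lemma ker_sixAlpha :
    LinearMap.ker (sixAlpha f g) = Submodule.comap (LinearMap.ker (g ∘ₗ f)).subtype (LinearMap.ker f) := by
  ext x
  simp only [LinearMap.mem_ker, Submodule.mem_comap, Submodule.subtype_apply]
  constructor
  · intro h
    have := congrArg (Subtype.val) h
    simpa using this
  · intro h
    apply Subtype.ext
    simpa using h

lemma ker_le_ker_comp : LinearMap.ker f ≤ LinearMap.ker (g ∘ₗ f) := by
  intro x hx
  simp only [LinearMap.mem_ker] at hx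
  simp [LinearMap.mem_ker, hx]

/-- `ker α ≃ ker f`. -/
noncomputable def kerSixAlphaEquiv : LinearMap.ker (sixAlpha f g) ≃ₗ[k] LinearMap.ker f :=
  (LinearEquiv.ofEq _ _ (ker_sixAlpha f g)).trans
    (Submodule.comapSubtypeEquivOfLe (ker_le_ker_comp f g))

lemma range_sixAlpha : LinearMap.range (sixAlpha f g) = LinearMap.ker (sixBeta f g) := by
  ext x
  simp only [LinearMap.mem_range, LinearMap.mem_ker, sixBeta_apply,
    Submodule.Quotient.mk_eq_zero]
  constructor
  · rintro ⟨y, rfl⟩
    exact ⟨y, rfl⟩
  · rintro ⟨u, hu⟩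
    have hx := x.2
    simp only [LinearMap.mem_ker] at hx
    refine ⟨⟨u, ?_⟩, ?_⟩
    · simp [LinearMap.mem_ker, hu, hx]
    · apply Subtype.ext
      simpa using hu

lemma range_sixBeta : LinearMap.range (sixBeta f g) = LinearMap.ker (sixGamma f g) := by
  ext x
  obtain ⟨v, rfl⟩ := (LinearMap.range f).mkQ_surjective x
  simp only [LinearMap.mem_range, LinearMap.mem_ker, sixGamma_mk, Submodule.mkQ_apply,
    Submodule.Quotient.mk_eq_zero]
  constructor
  · rintro ⟨y, hy⟩
    have hy' : (y : V) - v ∈ LinearMap.range f := by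
      have := hy
      simp only [sixBeta_apply] at this
      exact (Submodule.Quotient.eq _).mp this
    obtain ⟨u, hu⟩ := hy'
    refine ⟨-u, ?_⟩
    have hgy : g (y : V) = 0 := y.2
    have : v = (y : V) - f u := by rw [hu]; abel
    rw [this]
    simp [hgy]
  · rintro ⟨u, hu⟩
    refine ⟨⟨v - f u, ?_⟩, ?_⟩
    · simp only [LinearMap.mem_ker, map_sub]
      simp only [LinearMap.comp_apply] at hu
      rw [hu]; simp
    · simp only [sixBeta_apply]
      rw [Submodule.Quotient.eq]
      refine ⟨-u, ?_⟩
      simp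

lemma range_sixGamma : LinearMap.range (sixGamma f g) = LinearMap.ker (sixDelta f g) := by
  ext x
  obtain ⟨w, rfl⟩ := (LinearMap.range (g ∘ₗ f)).mkQ_surjective x
  simp only [LinearMap.mem_range, LinearMap.mem_ker, sixDelta_mk, Submodule.mkQ_apply,
    Submodule.Quotient.mk_eq_zero]
  constructor
  · rintro ⟨y, hy⟩
    obtain ⟨v, rfl⟩ := (LinearMap.range f).mkQ_surjective y
    simp only [sixGamma_mk, Submodule.mkQ_apply] at hy
    have := (Submodule.Quotient.eq _).mp hy
    obtain ⟨u, hu⟩ := this
    refine ⟨v - f u, ?_⟩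
    simp only [LinearMap.comp_apply] at hu
    simp only [map_sub, hu]
    abel
  · rintro ⟨v, rfl⟩
    exact ⟨(LinearMap.range f).mkQ v, rfl⟩

lemma sixDelta_surjective : Function.Surjective (sixDelta f g) := by
  intro x
  obtain ⟨w, rfl⟩ := (LinearMap.range g).mkQ_surjective x
  exact ⟨(LinearMap.range (g ∘ₗ f)).mkQ w, rfl⟩

end sixTerm

/-- Composition of Fredholm maps is Fredholm. -/
theorem IsFredholm.comp {f : U →ₗ[k] V} {g : V →ₗ[k] W} (hf : IsFredholm f) (hg : IsFredholm g) :
    IsFredholm (g ∘ₗ f) := by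
  have := hf.ker_fin
  have := hf.coker_fin
  have := hg.ker_fin
  have := hg.coker_fin
  constructor
  · -- ker (g ∘ f): sub = ker α ≃ ker f, quotient ≃ range α ≤ ker g
    have : Module.Finite k (LinearMap.ker (sixAlpha f g)) :=
      Module.Finite.equiv (kerSixAlphaEquiv f g).symm
    have : Module.Finite k (LinearMap.ker (g ∘ₗ f) ⧸ LinearMap.ker (sixAlpha f g)) :=
      Module.Finite.equiv (sixAlpha f g).quotKerEquivRange.symm
    exact Module.Finite.of_submodule_quotient (LinearMap.ker (sixAlpha f g))
  · -- coker (g ∘ f): sub = ker δ = range γ, quotient ≃ range δ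
    have : Module.Finite k (LinearMap.range (sixGamma f g)) := inferInstance
    have : Module.Finite k (LinearMap.ker (sixDelta f g)) := by
      rw [← range_sixGamma]; infer_instance
    have : Module.Finite k ((W ⧸ LinearMap.range (g ∘ₗ f)) ⧸ LinearMap.ker (sixDelta f g)) :=
      Module.Finite.equiv (sixDelta f g).quotKerEquivRange.symm
    exact Module.Finite.of_submodule_quotient (LinearMap.ker (sixDelta f g))

/-- Two out of three: if `g` and `g ∘ f` are Fredholm, so is `f`. -/
theorem IsFredholm.of_comp {f : U →ₗ[k] V} {g : V →ₗ[k] W} (hgf : IsFredholm (g ∘ₗ f))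
    (hg : IsFredholm g) : IsFredholm f := by
  have := hgf.ker_fin
  have := hgf.coker_fin
  have := hg.ker_fin
  have := hg.coker_fin
  constructor
  · exact Module.Finite.equiv (Submodule.comapSubtypeEquivOfLe (ker_le_ker_comp f g))
  · have : Module.Finite k (LinearMap.ker (sixGamma f g)) := by
      rw [← range_sixBeta]; infer_instance
    have : Module.Finite k ((V ⧸ LinearMap.range f) ⧸ LinearMap.ker (sixGamma f g)) :=
      Module.Finite.equiv (sixGamma f g).quotKerEquivRange.symm
    exact Module.Finite.of_submodule_quotient (LinearMap.ker (sixGamma f g))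

/-- Additivity of the index. -/
theorem ind_comp {f : U →ₗ[k] V} {g : V →ₗ[k] W} (hf : IsFredholm f) (hg : IsFredholm g) :
    ind (g ∘ₗ f) = ind g + ind f := by
  have hgf := hf.comp hg
  have := hf.ker_fin
  have := hf.coker_fin
  have := hg.ker_fin
  have := hg.coker_fin
  have := hgf.ker_fin
  have := hgf.coker_fin
  have a1 := (sixAlpha f g).finrank_range_add_finrank_ker
  have a1' : finrank k (LinearMap.ker (sixAlpha f g)) = finrank k (LinearMap.ker f) :=
    (kerSixAlphaEquiv f g).finrank_eq
  have a2 := (sixBeta f g).finrank_range_add_finrank_ker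
  have a2' : finrank k (LinearMap.ker (sixBeta f g)) = finrank k (LinearMap.range (sixAlpha f g)) := by
    rw [range_sixAlpha]
  have a3 := (sixGamma f g).finrank_range_add_finrank_ker
  have a3' : finrank k (LinearMap.ker (sixGamma f g)) = finrank k (LinearMap.range (sixBeta f g)) := by
    rw [range_sixBeta]
  have a4 := (sixDelta f g).finrank_range_add_finrank_ker
  have a4' : finrank k (LinearMap.ker (sixDelta f g)) = finrank k (LinearMap.range (sixGamma f g)) := by
    rw [range_sixGamma]
  have a4'' : finrank k (LinearMap.range (sixDelta f g)) = finrank k (W ⧸ LinearMap.range g) := by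
    rw [LinearMap.range_eq_top.mpr (sixDelta_surjective f g), finrank_top]
  unfold ind
  omega

theorem ind_of_comp {f : U →ₗ[k] V} {g : V →ₗ[k] W} (hgf : IsFredholm (g ∘ₗ f))
    (hg : IsFredholm g) : ind f = ind (g ∘ₗ f) - ind g := by
  have hf := hgf.of_comp hg
  rw [ind_comp hf hg]; ring

/-- A bijective map is Fredholm of index `0`. -/
theorem isFredholm_of_bijective {f : U →ₗ[k] V} (hf : Function.Bijective f) :
    IsFredholm f ∧ ind f = 0 := by
  have hk : LinearMap.ker f = ⊥ := LinearMap.ker_eq_bot.mpr hf.1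
  have hr : LinearMap.range f = ⊤ := LinearMap.range_eq_top.mpr hf.2
  have h1 : Subsingleton (V ⧸ LinearMap.range f) := by
    rw [hr]; exact Submodule.Quotient.subsingleton_iff.mpr (by simp)
  refine ⟨⟨?_, ?_⟩, ?_⟩
  · rw [hk]; infer_instance
  · infer_instance
  · unfold ind
    rw [hk, finrank_bot, Module.finrank_eq_zero_of_subsingleton k (V ⧸ LinearMap.range f)]
    simp

/-- A surjective map with finite-dimensional kernel is Fredholm of index `dim ker`. -/
theorem isFredholm_of_surjective {f : U →ₗ[k] V} (hf : Function.Surjective f)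
    [FiniteDimensional k (LinearMap.ker f)] :
    IsFredholm f ∧ ind f = finrank k (LinearMap.ker f) := by
  have hr : LinearMap.range f = ⊤ := LinearMap.range_eq_top.mpr hf
  have h1 : Subsingleton (V ⧸ LinearMap.range f) := by
    rw [hr]; exact Submodule.Quotient.subsingleton_iff.mpr (by simp)
  refine ⟨⟨inferInstance, inferInstance⟩, ?_⟩
  unfold ind
  rw [Module.finrank_eq_zero_of_subsingleton k (V ⧸ LinearMap.range f)]
  simp

end Fermat.Agent.S20_helper8
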