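/-
helper8 (T20): for a square matrix `H` over `k⟦X⟧` with nonzero determinant, the cokernel of
`H` on `k⟦X⟧^μ` is finite-dimensional over `k`, of dimension `ord_X (det H)`.
(Smith normal form over the discrete valuation ring `k⟦X⟧`.)
-/
import Mathlib

set_option autoImplicit false

namespace Fermat.Agent.S20_helper8

open Module PowerSeries

variable {k : Type*} [Field k]

section cyclic

/-- the first `n` coefficients of a power series -/
noncomputable def coeffsBelow (k : Type*) [Field k] (n : ℕ) : k⟦X⟧ →ₗ[k] (Fin n → k) where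
  toFun f i := PowerSeries.coeff (i : ℕ) f
  map_add' f g := by ext i; simp
  map_smul' c f := by ext i; simp

lemma coeffsBelow_surjective (n : ℕ) : Function.Surjective (coeffsBelow k n) := by
  intro c
  refine ⟨PowerSeries.mk fun j => if h : j < n then c ⟨j, h⟩ else 0, ?_⟩
  ext i
  simp [coeffsBelow, i.2]

lemma ker_coeffsBelow (n : ℕ) :
    LinearMap.ker (coeffsBelow k n) = (Ideal.span {(PowerSeries.X : k⟦X⟧) ^ n}).restrictScalars k := by
  ext f
  simp only [LinearMap.mem_ker, Submodule.restrictScalars_mem, Ideal.mem_span_singleton,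
    PowerSeries.X_pow_dvd_iff]
  constructor
  · intro h m hm
    have := congrFun h ⟨m, hm⟩
    simpa [coeffsBelow] using this
  · intro h
    ext i
    simpa [coeffsBelow] using h i i.2

/-- `k⟦X⟧ ⧸ (X^n) ≃ k^n`. -/
noncomputable def quotXPowEquiv (n : ℕ) :
    (k⟦X⟧ ⧸ Ideal.span {(PowerSeries.X : k⟦X⟧) ^ n}) ≃ₗ[k] (Fin n → k) :=
  ((Submodule.Quotient.restrictScalarsEquiv k (Ideal.span {(PowerSeries.X : k⟦X⟧) ^ n})).symm.trans
    (Submodule.quotEquivOfEq _ _ (ker_coeffsBelow n).symm)).trans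
    ((coeffsBelow k n).quotKerEquivOfSurjective (coeffsBelow_surjective n))

lemma span_singleton_eq_span_X_pow {a : k⟦X⟧} (ha : a ≠ 0) :
    Ideal.span {a} = Ideal.span {(PowerSeries.X : k⟦X⟧) ^ a.order.toNat} := by
  rw [Ideal.span_singleton_eq_span_singleton]
  have hu : IsUnit a.divXPowOrder := by
    rw [PowerSeries.isUnit_iff_constantCoeff, PowerSeries.constantCoeff_divXPowOrder]
    apply IsUnit.mk0
    exact PowerSeries.coeff_order ha
  obtain ⟨u, hu'⟩ := hu
  refine Associated.symm ⟨u, ?_⟩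
  rw [hu']
  exact PowerSeries.X_pow_order_mul_divXPowOrder

/-- `k⟦X⟧ ⧸ (a) ≃ k^(ord a)` for `a ≠ 0`. -/
noncomputable def quotSpanEquiv {a : k⟦X⟧} (ha : a ≠ 0) :
    (k⟦X⟧ ⧸ Ideal.span {a}) ≃ₗ[k] (Fin a.order.toNat → k) :=
  ((Submodule.Quotient.restrictScalarsEquiv k (Ideal.span {a})).symm.trans
    (Submodule.quotEquivOfEq _ _ (by rw [span_singleton_eq_span_X_pow ha]))).trans
    ((Submodule.Quotient.restrictScalarsEquiv k _).trans (quotXPowEquiv a.order.toNat))

lemma finite_quot_span {a : k⟦X⟧} (ha : a ≠ 0) : Module.Finite k (k⟦X⟧ ⧸ Ideal.span {a}) :=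
  Module.Finite.equiv (quotSpanEquiv ha).symm

lemma finrank_quot_span {a : k⟦X⟧} (ha : a ≠ 0) :
    finrank k (k⟦X⟧ ⧸ Ideal.span {a}) = a.order.toNat := by
  rw [(quotSpanEquiv ha).finrank_eq]
  simp

end cyclic

section matrix

variable {μ : Type*} [Fintype μ] [DecidableEq μ]

lemma order_eq_of_associated {a b : k⟦X⟧} (h : Associated a b) : a.order = b.order := by
  obtain ⟨u, rfl⟩ := h
  rw [PowerSeries.order_mul, PowerSeries.order_zero_of_unit u.isUnit, add_zero]

lemma mulVecLin_injective {H : Matrix μ μ k⟦X⟧} (hH : H.det ≠ 0) :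
    Function.Injective H.mulVecLin := by
  rw [← LinearMap.ker_eq_bot, LinearMap.ker_eq_bot']
  intro v hv
  exact Matrix.eq_zero_of_mulVec_eq_zero hH hv

lemma finrank_range_mulVecLin {H : Matrix μ μ k⟦X⟧} (hH : H.det ≠ 0) :
    finrank k⟦X⟧ (LinearMap.range H.mulVecLin) = finrank k⟦X⟧ (μ → k⟦X⟧) :=
  (LinearEquiv.ofInjective H.mulVecLin (mulVecLin_injective hH)).finrank_eq.symm

/-- `det H` is associated to the product of the Smith coefficients of `range H`. -/
lemma associated_det_prod_smith {H : Matrix μ μ k⟦X⟧} (hH : H.det ≠ 0) :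
    Associated H.det (∏ i, Submodule.smithNormalFormCoeffs (Pi.basisFun k⟦X⟧ μ)
      (finrank_range_mulVecLin hH) i) := by
  set b := Pi.basisFun k⟦X⟧ μ
  set h := finrank_range_mulVecLin hH
  set b' := Submodule.smithNormalFormTopBasis b h
  set ab := Submodule.smithNormalFormBotBasis b h
  set a := Submodule.smithNormalFormCoeffs b h
  have hab : ∀ i, ((ab i : LinearMap.range H.mulVecLin) : μ → k⟦X⟧) = a i • b' i :=
    Submodule.smithNormalFormBotBasis_def b h
  let e₁ : (μ → k⟦X⟧) ≃ₗ[k⟦X⟧] LinearMap.range H.mulVecLin :=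
    LinearEquiv.ofInjective H.mulVecLin (mulVecLin_injective hH)
  let e₂ : LinearMap.range H.mulVecLin ≃ₗ[k⟦X⟧] (μ → k⟦X⟧) := ab.equiv b' (Equiv.refl μ)
  let D : (μ → k⟦X⟧) →ₗ[k⟦X⟧] (μ → k⟦X⟧) := Matrix.toLin b' b' (Matrix.diagonal a)
  have hD : ∀ i, D (b' i) = a i • b' i := by
    intro i
    simp only [D, Matrix.toLin_self, Matrix.diagonal_apply]
    rw [Finset.sum_eq_single i]
    · simp
    · intro j _ hji
      simp [hji]
    · simp
  have hsub : (LinearMap.range H.mulVecLin).subtype = D ∘ₗ e₂.toLinearMap := by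
    apply ab.ext
    intro i
    simp only [Submodule.subtype_apply, LinearMap.comp_apply, LinearEquiv.coe_coe, e₂,
      Module.Basis.equiv_apply, Equiv.refl_apply, hD, hab]
  have key : ∀ x, H.mulVecLin x = D ((e₁.trans e₂) x) := by
    intro x
    have : H.mulVecLin x = (LinearMap.range H.mulVecLin).subtype (e₁ x) := rfl
    rw [this, hsub]
    rfl
  have := LinearMap.associated_det_of_eq_comp (e₁.trans e₂) H.mulVecLin D key
  have hdetH : LinearMap.det H.mulVecLin = H.det := LinearMap.det_toLin' H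
  have hdetD : LinearMap.det D = ∏ i, a i := by
    simp only [D, LinearMap.det_toLin, Matrix.det_diagonal]
  rwa [hdetH, hdetD] at this

/-- **Cokernel dimension = order of the determinant** over `k⟦X⟧`. -/
theorem finrank_quot_range_mulVecLin (H : Matrix μ μ k⟦X⟧) (hH : H.det ≠ 0) :
    Module.Finite k ((μ → k⟦X⟧) ⧸ LinearMap.range H.mulVecLin) ∧
      finrank k ((μ → k⟦X⟧) ⧸ LinearMap.range H.mulVecLin) = H.det.order.toNat := by
  set b := Pi.basisFun k⟦X⟧ μ
  set h := finrank_range_mulVecLin hH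
  set a := Submodule.smithNormalFormCoeffs b h
  have ha : ∀ i, a i ≠ 0 := Submodule.smithNormalFormCoeffs_ne_zero b h
  have : ∀ i, Module.Finite k (k⟦X⟧ ⧸ Ideal.span {a i}) := fun i => finite_quot_span (ha i)
  have e := (Submodule.quotientEquivPiSpan (LinearMap.range H.mulVecLin) b h).restrictScalars k
  refine ⟨Module.Finite.equiv e.symm, ?_⟩
  rw [Submodule.finrank_quotient_eq_sum k b h]
  have h1 : ∀ i, finrank k (k⟦X⟧ ⧸ Ideal.span {a i}) = (a i).order.toNat :=
    fun i => finrank_quot_span (ha i)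
  simp only [a] at h1
  rw [Finset.sum_congr rfl (fun i _ => h1 i)]
  rw [order_eq_of_associated (associated_det_prod_smith hH), PowerSeries.order_prod]
  -- toNat of a finite sum of finite orders
  have hfin : ∀ i, (a i).order ≠ ⊤ := fun i => by
    rw [Ne, PowerSeries.order_eq_top]; exact ha i
  have : ∀ s : Finset μ, (∑ i ∈ s, (a i).order).toNat = ∑ i ∈ s, (a i).order.toNat := by
    intro s
    induction s using Finset.induction_on with
    | empty => simp
    | insert j s hj ih =>
      rw [Finset.sum_insert hj, Finset.sum_insert hj, ENat.toNat_add (hfin j), ih]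
      exact ENat.sum_ne_top.mpr (fun i _ => hfin i)
  exact (this Finset.univ).symm

end matrix

end Fermat.Agent.S20_helper8
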