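/-
helper8 (T20): Riemann–Roch on `P^1` in matrix (index) form.

`k` a field, `ξ ∈ k⸨X⸩` of order `-1` (think: the `q`-expansion of `j`), `ι : k[X] → k⸨X⸩`, `X ↦ ξ`.
For `G ∈ GL_μ(k⸨X⸩)` the `k`-linear map
  `phi ξ G : (μ → k[X]) → (μ → k⸨X⸩) ⧸ (integral vectors)`, `a ↦ [G *ᵥ (ι ∘ a)]`
is Fredholm of index `card μ + ord_X (det G)`.
-/
import Mathlib
import Fermat.Agent.S20_helper8.FredholmIndex
import Fermat.Agent.S20_helper8.SmithOrder

set_option autoImplicit false
set_option linter.unusedSectionVars false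
set_option linter.unusedVariables false

namespace Fermat.Agent.S20_helper8

open Module PowerSeries Polynomial

variable {k : Type*} [Field k]

/-! ### Laurent series with no terms below a given degree -/

/-- `f` has no terms of degree `< N`. -/
def OrdGE (N : ℤ) (f : LaurentSeries k) : Prop := ∀ n : ℤ, n < N → f.coeff n = 0

lemma OrdGE.mono {N N' : ℤ} {f : LaurentSeries k} (h : OrdGE N f) (hN : N' ≤ N) : OrdGE N' f :=
  fun n hn => h n (lt_of_lt_of_le hn hN)

lemma ordGE_zero (N : ℤ) : OrdGE N (0 : LaurentSeries k) := fun _ _ => rfl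

lemma OrdGE.add {N : ℤ} {f g : LaurentSeries k} (hf : OrdGE N f) (hg : OrdGE N g) :
    OrdGE N (f + g) := fun n hn => by
  rw [HahnSeries.coeff_add, hf n hn, hg n hn, add_zero]

lemma OrdGE.neg {N : ℤ} {f : LaurentSeries k} (hf : OrdGE N f) : OrdGE N (-f) := fun n hn => by
  rw [HahnSeries.coeff_neg, hf n hn, neg_zero]

lemma OrdGE.sub {N : ℤ} {f g : LaurentSeries k} (hf : OrdGE N f) (hg : OrdGE N g) :
    OrdGE N (f - g) := by
  rw [sub_eq_add_neg]; exact hf.add hg.neg

lemma OrdGE.smul {N : ℤ} {f : LaurentSeries k} (hf : OrdGE N f) (c : k) : OrdGE N (c • f) :=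
  fun n hn => by rw [HahnSeries.coeff_smul, hf n hn, smul_zero]

lemma OrdGE.single_mul {N : ℤ} {f : LaurentSeries k} (hf : OrdGE N f) (a : ℤ) (c : k) :
    OrdGE (N + a) (HahnSeries.single a c * f) := fun n hn => by
  rw [HahnSeries.coeff_single_mul, hf (n - a) (by omega), mul_zero]

lemma ordGE_order (f : LaurentSeries k) : OrdGE f.order f :=
  fun _ hn => HahnSeries.coeff_eq_zero_of_lt_order hn

lemma exists_ordGE (f : LaurentSeries k) : ∃ N : ℕ, OrdGE (-(N : ℤ)) f :=
  ⟨(-f.order).toNat, (ordGE_order f).mono (by omega)⟩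

lemma ordGE_coe (r : k⟦X⟧) : OrdGE 0 (r : LaurentSeries k) := fun n hn => by
  rw [PowerSeries.coeff_coe, if_pos hn]

lemma exists_coe_of_ordGE {f : LaurentSeries k} (h : OrdGE 0 f) :
    ∃ r : k⟦X⟧, (r : LaurentSeries k) = f := by
  refine ⟨PowerSeries.mk fun n => f.coeff n, ?_⟩
  ext n
  rw [PowerSeries.coeff_coe]
  split_ifs with hn
  · exact (h n hn).symm
  · rw [PowerSeries.coeff_mk]
    congr 1
    omega

/-! ### Decomposition `k⸨X⸩ = k[ξ] ⊕ X k⟦X⟧` -/

section decomposition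

lemma coeff_C_mul' (c : k) (g : LaurentSeries k) (n : ℤ) :
    (HahnSeries.C c * g).coeff n = c * g.coeff n := by
  rw [HahnSeries.C_mul_eq_smul, HahnSeries.coeff_smul, smul_eq_mul]

/-- `ι_ξ : k[X] → k⸨X⸩`, `X ↦ ξ` (as a ring hom; we avoid the `Algebra k k⸨X⸩` instance diamond). -/
noncomputable def polyToLaurent (ξ : LaurentSeries k) : k[X] →+* LaurentSeries k :=
  Polynomial.eval₂RingHom (HahnSeries.C : k →+* LaurentSeries k) ξ

@[simp] lemma polyToLaurent_X (ξ : LaurentSeries k) : polyToLaurent ξ Polynomial.X = ξ := by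
  simp [polyToLaurent]

@[simp] lemma polyToLaurent_C (ξ : LaurentSeries k) (c : k) :
    polyToLaurent ξ (Polynomial.C c) = HahnSeries.C c := by
  simp [polyToLaurent]

lemma polyToLaurent_smul (ξ : LaurentSeries k) (c : k) (p : k[X]) :
    polyToLaurent ξ (c • p) = c • polyToLaurent ξ p := by
  rw [Polynomial.smul_eq_C_mul, map_mul, polyToLaurent_C, HahnSeries.C_mul_eq_smul]

variable {ξ : LaurentSeries k}

lemma xi_ne_zero (hξ : ξ.order = -1) : ξ ≠ 0 := by
  rintro rfl
  simp at hξ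

lemma xi_pow_order (hξ : ξ.order = -1) (n : ℕ) : (ξ ^ n).order = -(n : ℤ) := by
  rw [HahnSeries.order_pow, hξ]
  simp

lemma xi_pow_ordGE (hξ : ξ.order = -1) (n : ℕ) : OrdGE (-(n : ℤ)) (ξ ^ n) := by
  have := ordGE_order (ξ ^ n)
  rwa [xi_pow_order hξ] at this

lemma xi_pow_coeff_ne (hξ : ξ.order = -1) (n : ℕ) : (ξ ^ n).coeff (-(n : ℤ)) ≠ 0 := by
  have h := (HahnSeries.coeff_order_eq_zero (x := ξ ^ n)).not.mpr (pow_ne_zero n (xi_ne_zero hξ))
  rwa [xi_pow_order hξ] at h

/-- every Laurent series is a polynomial in `ξ` up to a series of positive order -/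
theorem exists_poly_sub_ordGE_one (hξ : ξ.order = -1) (f : LaurentSeries k) :
    ∃ p : k[X], OrdGE 1 (f - polyToLaurent ξ p) := by
  obtain ⟨N, hN⟩ := exists_ordGE f
  have key : ∀ (N : ℕ) (f : LaurentSeries k), OrdGE (-(N : ℤ) + 1) f →
      ∃ p : k[X], OrdGE 1 (f - polyToLaurent ξ p) := by
    intro N
    induction N with
    | zero =>
      intro f hf
      exact ⟨0, by simpa using hf⟩
    | succ N ih =>
      intro f hf
      set c : k := f.coeff (-(N : ℤ)) / (ξ ^ N).coeff (-(N : ℤ)) with hc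
      have hf' : OrdGE (-(N : ℤ) + 1) (f - HahnSeries.C c * ξ ^ N) := by
        intro n hn
        rcases lt_or_eq_of_le (show n ≤ -(N : ℤ) by omega) with h | h
        · have h1 : f.coeff n = 0 := hf n (by push_cast; omega)
          have h2 : (ξ ^ N).coeff n = 0 := xi_pow_ordGE hξ N n h
          rw [HahnSeries.coeff_sub, coeff_C_mul', h1, h2]; simp
        · subst h
          rw [HahnSeries.coeff_sub, coeff_C_mul', hc,
            div_mul_cancel₀ _ (xi_pow_coeff_ne hξ N), sub_self]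
      obtain ⟨p, hp⟩ := ih _ hf'
      refine ⟨p + Polynomial.C c * Polynomial.X ^ N, ?_⟩
      have : f - polyToLaurent ξ (p + Polynomial.C c * Polynomial.X ^ N)
          = f - HahnSeries.C c * ξ ^ N - polyToLaurent ξ p := by
        simp only [map_add, map_mul, polyToLaurent_C, map_pow, polyToLaurent_X]
        ring
      rwa [this]
  exact key (N + 1) f (hN.mono (by push_cast; omega))

/-- a polynomial in `ξ` of positive order is zero -/
theorem eq_zero_of_polyToLaurent_ordGE_one (hξ : ξ.order = -1) (p : k[X])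
    (h : OrdGE 1 (polyToLaurent ξ p)) : p = 0 := by
  by_contra hp
  set d := p.natDegree with hd
  have hcoef : (polyToLaurent ξ p).coeff (-(d : ℤ))
      = p.leadingCoeff * (ξ ^ d).coeff (-(d : ℤ)) := by
    have : polyToLaurent ξ p = ∑ i ∈ Finset.range (p.natDegree + 1),
        HahnSeries.C (p.coeff i) * ξ ^ i := Polynomial.eval₂_eq_sum_range _ _
    rw [this, HahnSeries.coeff_sum, Finset.sum_eq_single d]
    · rw [coeff_C_mul']; rfl
    · intro i hi hid
      have hi' : i < d := lt_of_le_of_ne (Nat.lt_succ_iff.mp (Finset.mem_range.mp hi)) hid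
      rw [coeff_C_mul', xi_pow_ordGE hξ i _ (by omega), mul_zero]
    · intro hd'
      exact absurd (Finset.mem_range.mpr (Nat.lt_succ_self d)) hd'
  have h0 : (polyToLaurent ξ p).coeff (-(d : ℤ)) = 0 := h _ (by omega)
  rw [hcoef] at h0
  rcases mul_eq_zero.mp h0 with h1 | h1
  · exact hp (Polynomial.leadingCoeff_eq_zero.mp h1)
  · exact xi_pow_coeff_ne hξ d h1

end decomposition

/-! ### Orders of coerced power series -/

lemma order_eq_of_ordGE_of_coeff_ne {N : ℤ} {f : LaurentSeries k} (h : OrdGE N f)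
    (hN : f.coeff N ≠ 0) : f.order = N := by
  apply le_antisymm (HahnSeries.order_le_of_coeff_ne_zero hN)
  by_contra hlt
  rw [not_le] at hlt
  have hf : f ≠ 0 := HahnSeries.ne_zero_of_coeff_ne_zero hN
  exact (HahnSeries.coeff_order_eq_zero.not.mpr hf) (h _ hlt)

lemma ordGE_coe_order (x : k⟦X⟧) : OrdGE (x.order.toNat : ℤ) (x : LaurentSeries k) := by
  intro n hn
  rw [PowerSeries.coeff_coe]
  split_ifs with h0
  · rfl
  · apply PowerSeries.coeff_of_lt_order
    have h1 : n.natAbs < x.order.toNat := by omega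
    by_cases hx : x = 0
    · subst hx; simp at h1
    · have hfin : x.order ≠ ⊤ := by rwa [Ne, PowerSeries.order_eq_top]
      rw [← ENat.natCast_toNat hfin]
      exact_mod_cast h1

lemma order_coe {x : k⟦X⟧} (hx : x ≠ 0) :
    (x : LaurentSeries k).order = (x.order.toNat : ℤ) := by
  apply order_eq_of_ordGE_of_coeff_ne (ordGE_coe_order x)
  rw [PowerSeries.coeff_coe, if_neg (by omega), Int.natAbs_natCast]
  exact PowerSeries.coeff_order hx

/-! ### The lattice of integral vectors and the maps -/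

section lattice

variable (k) (μ : Type*) [Fintype μ] [DecidableEq μ]

/-- coefficientwise coercion of vectors of power series -/
noncomputable def coeVec : (μ → k⟦X⟧) →ₗ[k] (μ → LaurentSeries k) where
  toFun r i := (r i : LaurentSeries k)
  map_add' r s := by ext i : 1; simp
  map_smul' c r := by
    ext i : 1
    simp only [Pi.smul_apply, RingHom.id_apply]
    exact PowerSeries.coe_smul c (r i)

/-- integral vectors: all coordinates have no terms of negative degree -/
def intVec : Submodule k (μ → LaurentSeries k) where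
  carrier := {w | ∀ i, OrdGE 0 (w i)}
  add_mem' hv hw i := (hv i).add (hw i)
  zero_mem' i := ordGE_zero 0
  smul_mem' c _ hv i := (hv i).smul c

variable {k μ}

lemma mem_intVec {w : μ → LaurentSeries k} : w ∈ intVec k μ ↔ ∀ i, OrdGE 0 (w i) := Iff.rfl

lemma coeVec_mem (r : μ → k⟦X⟧) : coeVec k μ r ∈ intVec k μ := fun i => ordGE_coe (r i)

lemma exists_coeVec_of_mem {w : μ → LaurentSeries k} (hw : w ∈ intVec k μ) :
    ∃ r : μ → k⟦X⟧, coeVec k μ r = w := by
  choose r hr using fun i => exists_coe_of_ordGE (hw i)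
  exact ⟨r, funext hr⟩

lemma coeVec_injective : Function.Injective (coeVec k μ) := by
  intro r s h
  funext i
  exact HahnSeries.ofPowerSeries_injective (congrFun h i)

/-- `v ↦ G *ᵥ v` as a `k`-linear map. -/
noncomputable def mulVecK (G : Matrix μ μ (LaurentSeries k)) :
    (μ → LaurentSeries k) →ₗ[k] (μ → LaurentSeries k) where
  toFun v := G.mulVec v
  map_add' := Matrix.mulVec_add G
  map_smul' c v := by
    have h1 : c • v = (HahnSeries.C c : LaurentSeries k) • v := by
      ext i : 1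
      simp only [Pi.smul_apply, smul_eq_mul, HahnSeries.C_mul_eq_smul]
    have h2 : ∀ w : μ → LaurentSeries k, (HahnSeries.C c : LaurentSeries k) • w = c • w := by
      intro w
      ext i : 1
      simp only [Pi.smul_apply, smul_eq_mul, HahnSeries.C_mul_eq_smul]
    simp only [RingHom.id_apply]
    rw [h1, Matrix.mulVec_smul, h2]

@[simp] lemma mulVecK_apply (G : Matrix μ μ (LaurentSeries k)) (v : μ → LaurentSeries k) :
    mulVecK G v = G.mulVec v := rfl

lemma mulVecK_mul (G G' : Matrix μ μ (LaurentSeries k)) :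
    mulVecK (G * G') = mulVecK G ∘ₗ mulVecK G' := by
  refine LinearMap.ext fun v => ?_
  show (G * G').mulVec v = G.mulVec (G'.mulVec v)
  rw [Matrix.mulVec_mulVec]

/-- the matrix of a power series matrix over Laurent series -/
noncomputable def coeMat (H : Matrix μ μ k⟦X⟧) : Matrix μ μ (LaurentSeries k) :=
  H.map (HahnSeries.ofPowerSeries ℤ k)

lemma coeMat_mulVec (H : Matrix μ μ k⟦X⟧) (r : μ → k⟦X⟧) :
    (coeMat H).mulVec (coeVec k μ r) = coeVec k μ (H.mulVec r) := by
  funext i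
  exact (RingHom.map_mulVec (HahnSeries.ofPowerSeries ℤ k) H r i).symm

lemma det_coeMat (H : Matrix μ μ k⟦X⟧) :
    (coeMat H).det = ((H.det : k⟦X⟧) : LaurentSeries k) :=
  (RingHom.map_det (HahnSeries.ofPowerSeries ℤ k) H).symm

lemma mulVecK_coeMat_mem (H : Matrix μ μ k⟦X⟧) {w : μ → LaurentSeries k} (hw : w ∈ intVec k μ) :
    mulVecK (coeMat H) w ∈ intVec k μ := by
  obtain ⟨r, rfl⟩ := exists_coeVec_of_mem hw
  rw [mulVecK_apply, coeMat_mulVec]
  exact coeVec_mem _

variable (k μ) in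
/-- the quotient `k⸨X⸩^μ / k⟦X⟧^μ` -/
abbrev QW : Type _ := (μ → LaurentSeries k) ⧸ intVec k μ

/-- the endomorphism of `QW` induced by an integral matrix -/
noncomputable def Hbar (H : Matrix μ μ k⟦X⟧) : QW k μ →ₗ[k] QW k μ :=
  (intVec k μ).mapQ (intVec k μ) (mulVecK (coeMat H)) (fun _ hw => mulVecK_coeMat_mem H hw)

@[simp] lemma Hbar_mk (H : Matrix μ μ k⟦X⟧) (w : μ → LaurentSeries k) :
    Hbar H (Submodule.Quotient.mk w) = Submodule.Quotient.mk ((coeMat H).mulVec w) := rfl

/-- coordinatewise `ι_ξ` -/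
noncomputable def polyVec (ξ : LaurentSeries k) : (μ → k[X]) →ₗ[k] (μ → LaurentSeries k) where
  toFun a i := polyToLaurent ξ (a i)
  map_add' a b := by ext i : 1; simp
  map_smul' c a := by
    ext i : 1
    simp only [Pi.smul_apply, RingHom.id_apply]
    exact polyToLaurent_smul ξ c (a i)

@[simp] lemma polyVec_apply (ξ : LaurentSeries k) (a : μ → k[X]) (i : μ) :
    polyVec ξ a i = polyToLaurent ξ (a i) := rfl

/-- **The map whose index we compute**: `a ↦ [G *ᵥ ι_ξ(a)]`. -/
noncomputable def phi (ξ : LaurentSeries k) (G : Matrix μ μ (LaurentSeries k)) :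
    (μ → k[X]) →ₗ[k] QW k μ :=
  (intVec k μ).mkQ ∘ₗ mulVecK G ∘ₗ polyVec ξ

lemma phi_apply (ξ : LaurentSeries k) (G : Matrix μ μ (LaurentSeries k)) (a : μ → k[X]) :
    phi ξ G a = Submodule.Quotient.mk (G.mulVec (polyVec ξ a)) := rfl

lemma Hbar_comp_phi (ξ : LaurentSeries k) (H : Matrix μ μ k⟦X⟧)
    (G : Matrix μ μ (LaurentSeries k)) :
    Hbar H ∘ₗ phi ξ G = phi ξ (coeMat H * G) := by
  refine LinearMap.ext fun a => ?_
  show Hbar H (Submodule.Quotient.mk (G.mulVec (polyVec ξ a)))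
    = Submodule.Quotient.mk ((coeMat H * G).mulVec (polyVec ξ a))
  rw [Hbar_mk, Matrix.mulVec_mulVec]

/-! ### `Hbar H` is onto with kernel of dimension `ord det H` -/

section HbarIndex

variable (H : Matrix μ μ k⟦X⟧)

lemma isUnit_det_coeMat (hH : H.det ≠ 0) : IsUnit (coeMat H).det := by
  rw [det_coeMat]
  apply IsUnit.mk0
  intro h
  exact hH (HahnSeries.ofPowerSeries_injective (Γ := ℤ) (h.trans (map_zero _).symm))

lemma Hbar_surjective (hH : H.det ≠ 0) : Function.Surjective (Hbar H) := by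
  intro x
  obtain ⟨w, rfl⟩ := (intVec k μ).mkQ_surjective x
  refine ⟨Submodule.Quotient.mk ((coeMat H)⁻¹.mulVec w), ?_⟩
  rw [Hbar_mk, Matrix.mulVec_mulVec, Matrix.mul_nonsing_inv _ (isUnit_det_coeMat H hH),
    Matrix.one_mulVec]
  rfl

/-- `r ↦ [H⁻¹ r]`, which identifies `k⟦X⟧^μ / H k⟦X⟧^μ` with `ker (Hbar H)` -/
noncomputable def kappa : (μ → k⟦X⟧) →ₗ[k] QW k μ :=
  (intVec k μ).mkQ ∘ₗ mulVecK (coeMat H)⁻¹ ∘ₗ coeVec k μ

lemma kappa_apply (r : μ → k⟦X⟧) :
    kappa H r = Submodule.Quotient.mk ((coeMat H)⁻¹.mulVec (coeVec k μ r)) := rfl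

lemma range_kappa (hH : H.det ≠ 0) : LinearMap.range (kappa H) = LinearMap.ker (Hbar H) := by
  have hu := isUnit_det_coeMat H hH
  ext x
  simp only [LinearMap.mem_range, LinearMap.mem_ker]
  constructor
  · rintro ⟨r, rfl⟩
    rw [kappa_apply, Hbar_mk, Matrix.mulVec_mulVec, Matrix.mul_nonsing_inv _ hu,
      Matrix.one_mulVec, Submodule.Quotient.mk_eq_zero]
    exact coeVec_mem r
  · intro hx
    obtain ⟨w, rfl⟩ := (intVec k μ).mkQ_surjective x
    rw [Submodule.mkQ_apply, Hbar_mk, Submodule.Quotient.mk_eq_zero] at hx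
    obtain ⟨r, hr⟩ := exists_coeVec_of_mem hx
    refine ⟨r, ?_⟩
    rw [kappa_apply, hr, Matrix.mulVec_mulVec, Matrix.nonsing_inv_mul _ hu, Matrix.one_mulVec]
    rfl

lemma ker_kappa (hH : H.det ≠ 0) :
    LinearMap.ker (kappa H) = (LinearMap.range H.mulVecLin).restrictScalars k := by
  have hu := isUnit_det_coeMat H hH
  ext r
  simp only [LinearMap.mem_ker, Submodule.restrictScalars_mem, LinearMap.mem_range,
    Matrix.mulVecLin_apply]
  rw [kappa_apply, Submodule.Quotient.mk_eq_zero]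
  constructor
  · intro h
    obtain ⟨s, hs⟩ := exists_coeVec_of_mem h
    refine ⟨s, ?_⟩
    apply coeVec_injective
    rw [← coeMat_mulVec, hs, Matrix.mulVec_mulVec, Matrix.mul_nonsing_inv _ hu, Matrix.one_mulVec]
  · rintro ⟨s, rfl⟩
    rw [← coeMat_mulVec, Matrix.mulVec_mulVec, Matrix.nonsing_inv_mul _ hu, Matrix.one_mulVec]
    exact coeVec_mem s

/-- `ker (Hbar H) ≃ k⟦X⟧^μ / H k⟦X⟧^μ` -/
noncomputable def kerHbarEquiv (hH : H.det ≠ 0) :
    LinearMap.ker (Hbar H) ≃ₗ[k] ((μ → k⟦X⟧) ⧸ LinearMap.range H.mulVecLin) :=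
  ((LinearEquiv.ofEq _ _ (range_kappa H hH).symm).trans (kappa H).quotKerEquivRange.symm).trans
    ((Submodule.quotEquivOfEq _ _ (ker_kappa H hH)).trans
      (Submodule.Quotient.restrictScalarsEquiv k (LinearMap.range H.mulVecLin)))

theorem Hbar_isFredholm (hH : H.det ≠ 0) :
    IsFredholm (Hbar H) ∧ ind (Hbar H) = (H.det.order.toNat : ℤ) := by
  obtain ⟨hfin, hrank⟩ := finrank_quot_range_mulVecLin H hH
  have : FiniteDimensional k (LinearMap.ker (Hbar H)) :=
    Module.Finite.equiv (kerHbarEquiv H hH).symm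
  obtain ⟨h1, h2⟩ := isFredholm_of_surjective (Hbar_surjective H hH)
  refine ⟨h1, ?_⟩
  rw [h2, (kerHbarEquiv H hH).finrank_eq, hrank]

end HbarIndex

/-! ### The basic bijection `ψ₁ = phi ξ (X⁻¹ • 1)` -/

section psiOne

/-- `X^n` as a Laurent series -/
noncomputable abbrev tpow (k : Type*) [Field k] (n : ℤ) : LaurentSeries k := HahnSeries.single n (1 : k)

lemma tpow_mul_tpow (a b : ℤ) : tpow k a * tpow k b = tpow k (a + b) := by
  simp [tpow, HahnSeries.single_mul_single]

lemma tpow_zero : tpow k 0 = 1 := HahnSeries.single_zero_one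

lemma tpow_ne_zero (a : ℤ) : tpow k a ≠ 0 := HahnSeries.single_ne_zero one_ne_zero

lemma smul_one_mulVec (c : LaurentSeries k) (v : μ → LaurentSeries k) :
    (c • (1 : Matrix μ μ (LaurentSeries k))).mulVec v = fun i => c * v i := by
  rw [Matrix.smul_mulVec, Matrix.one_mulVec]
  rfl

variable {ξ : LaurentSeries k}

theorem phi_tinv_bijective (hξ : ξ.order = -1) :
    Function.Bijective (phi (μ := μ) ξ (tpow k (-1) • (1 : Matrix μ μ (LaurentSeries k)))) := by
  constructor
  · rw [← LinearMap.ker_eq_bot, LinearMap.ker_eq_bot']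
    intro a ha
    rw [phi_apply, Submodule.Quotient.mk_eq_zero, smul_one_mulVec] at ha
    funext i
    have h1 : OrdGE 0 (tpow k (-1) * polyToLaurent ξ (a i)) := ha i
    have h2 := h1.single_mul 1 (1 : k)
    rw [← mul_assoc] at h2
    have h3 : HahnSeries.single (1 : ℤ) (1 : k) * tpow k (-1) = 1 := by
      show tpow k 1 * tpow k (-1) = 1
      rw [tpow_mul_tpow]; exact tpow_zero
    rw [h3, one_mul] at h2
    exact eq_zero_of_polyToLaurent_ordGE_one hξ (a i) (by simpa using h2)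
  · intro x
    obtain ⟨w, rfl⟩ := (intVec k μ).mkQ_surjective x
    choose p hp using fun i => exists_poly_sub_ordGE_one hξ (tpow k 1 * w i)
    refine ⟨p, ?_⟩
    rw [phi_apply, Submodule.mkQ_apply, Submodule.Quotient.eq, smul_one_mulVec]
    intro i
    have h1 := (hp i).single_mul (-1) (1 : k)
    have h2 : HahnSeries.single (-1 : ℤ) (1 : k) * (tpow k 1 * w i - polyToLaurent ξ (p i))
        = -((fun i => tpow k (-1) * polyVec ξ p i) - w) i := by
      have h3 : tpow k (-1) * tpow k 1 = (1 : LaurentSeries k) := by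
        rw [tpow_mul_tpow]; exact tpow_zero
      show tpow k (-1) * (tpow k 1 * w i - polyToLaurent ξ (p i)) = _
      rw [mul_sub, ← mul_assoc, h3, one_mul]
      simp
    rw [h2] at h1
    have h4 := h1.neg
    simpa using h4

end psiOne

/-! ### Clearing denominators and the main theorem -/

section main

lemma coe_X_pow (c : ℕ) : (((PowerSeries.X : k⟦X⟧) ^ c : k⟦X⟧) : LaurentSeries k) = tpow k c := by
  rw [PowerSeries.coe_pow, PowerSeries.coe_X, HahnSeries.single_pow]
  simp [tpow]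

lemma coeMat_smul_one (x : k⟦X⟧) :
    coeMat (x • (1 : Matrix μ μ k⟦X⟧)) = (x : LaurentSeries k) • (1 : Matrix μ μ (LaurentSeries k)) := by
  ext i j
  by_cases hij : i = j
  · subst hij; simp [coeMat]
  · simp [coeMat, hij]

lemma coeMat_smul (x : k⟦X⟧) (H : Matrix μ μ k⟦X⟧) :
    coeMat (x • H) = (x : LaurentSeries k) • coeMat H := by
  ext i j
  simp [coeMat]

lemma exists_clear_denominators (G : Matrix μ μ (LaurentSeries k)) :
    ∃ (c : ℕ) (H : Matrix μ μ k⟦X⟧), coeMat H = tpow k c • G := by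
  choose N hN using fun ij : μ × μ => exists_ordGE (G ij.1 ij.2)
  set c := Finset.univ.sup N with hc
  have hint : ∀ i j, OrdGE 0 (tpow k c * G i j) := by
    intro i j
    have h1 : N (i, j) ≤ c := Finset.le_sup (f := N) (Finset.mem_univ (i, j))
    have h2 := ((hN (i, j)).mono (show -(c : ℤ) ≤ -(N (i, j) : ℤ) by omega)).single_mul c (1 : k)
    simpa using h2
  choose H hH using fun i j => exists_coe_of_ordGE (hint i j)
  refine ⟨c, Matrix.of H, ?_⟩
  refine Matrix.ext fun i j => ?_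
  simp only [coeMat, Matrix.map_apply, Matrix.of_apply, Matrix.smul_apply, smul_eq_mul]
  exact hH i j

variable {ξ : LaurentSeries k}

/-- **Riemann–Roch on `P^1` in matrix form.** For `G ∈ GL_μ(k⸨X⸩)` the map
`a ↦ [G *ᵥ ι_ξ(a)] : k[X]^μ → k⸨X⸩^μ / k⟦X⟧^μ` is Fredholm of index `card μ + ord (det G)`. -/
theorem phi_isFredholm_and_ind (hξ : ξ.order = -1) (G : Matrix μ μ (LaurentSeries k))
    (hG : G.det ≠ 0) :
    IsFredholm (phi ξ G) ∧ ind (phi ξ G) = (Fintype.card μ : ℤ) + G.det.order := by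
  obtain ⟨c, H, hH⟩ := exists_clear_denominators G
  -- determinant bookkeeping
  have hdetHc : (coeMat H).det = tpow k c ^ Fintype.card μ * G.det := by
    rw [hH, Matrix.det_smul]
  have hdetH : H.det ≠ 0 := by
    intro h0
    have : (coeMat H).det = 0 := by rw [det_coeMat, h0]; simp
    rw [hdetHc] at this
    rcases mul_eq_zero.mp this with h | h
    · exact pow_ne_zero _ (tpow_ne_zero c) h
    · exact hG h
  have hord : (H.det.order.toNat : ℤ) = (c : ℤ) * Fintype.card μ + G.det.order := by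
    rw [← order_coe hdetH, ← det_coeMat, hdetHc,
      HahnSeries.order_mul (pow_ne_zero _ (tpow_ne_zero c)) hG, HahnSeries.order_pow,
      HahnSeries.order_single one_ne_zero]
    simp [mul_comm]
  -- the two scalar matrices
  have hXc : ((PowerSeries.X : k⟦X⟧) ^ c • (1 : Matrix μ μ k⟦X⟧)).det ≠ 0 := by
    rw [Matrix.det_smul, Matrix.det_one, mul_one]
    exact pow_ne_zero _ (pow_ne_zero _ PowerSeries.X_ne_zero)
  have hXH : ((PowerSeries.X : k⟦X⟧) • H).det ≠ 0 := by
    rw [Matrix.det_smul]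
    exact mul_ne_zero (pow_ne_zero _ PowerSeries.X_ne_zero) hdetH
  obtain ⟨f1, i1⟩ := Hbar_isFredholm _ hXc
  obtain ⟨f2, i2⟩ := Hbar_isFredholm _ hXH
  obtain ⟨f0, i0⟩ := isFredholm_of_bijective (phi_tinv_bijective (μ := μ) hξ)
  -- E1 : Hbar (X^c • 1) ∘ phi G = phi (coeMat H)
  have E1 : Hbar ((PowerSeries.X : k⟦X⟧) ^ c • (1 : Matrix μ μ k⟦X⟧)) ∘ₗ phi ξ G
      = phi ξ (coeMat H) := by
    rw [Hbar_comp_phi, coeMat_smul_one, coe_X_pow, hH, Matrix.smul_mul, Matrix.one_mul]
  -- E2 : Hbar (X • H) ∘ phi (X⁻¹ • 1) = phi (coeMat H)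
  have E2 : Hbar ((PowerSeries.X : k⟦X⟧) • H) ∘ₗ
      phi ξ (tpow k (-1) • (1 : Matrix μ μ (LaurentSeries k))) = phi ξ (coeMat H) := by
    rw [Hbar_comp_phi, coeMat_smul, PowerSeries.coe_X, Matrix.smul_mul, Matrix.mul_smul,
      Matrix.mul_one, smul_smul]
    have : (HahnSeries.single (1 : ℤ) (1 : k)) * tpow k (-1) = 1 := by
      show tpow k 1 * tpow k (-1) = 1
      rw [tpow_mul_tpow]; exact tpow_zero
    rw [this, one_smul]
  have hF : IsFredholm (phi ξ (coeMat H)) := by rw [← E2]; exact f0.comp f2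
  have hI : ind (phi ξ (coeMat H)) = ind (Hbar ((PowerSeries.X : k⟦X⟧) • H)) := by
    rw [← E2, ind_comp f0 f2, i0, add_zero]
  have hF' : IsFredholm (Hbar ((PowerSeries.X : k⟦X⟧) ^ c • (1 : Matrix μ μ k⟦X⟧)) ∘ₗ phi ξ G) := by
    rw [E1]; exact hF
  refine ⟨hF'.of_comp f1, ?_⟩
  rw [ind_of_comp hF' f1, E1, hI, i1, i2]
  -- orders of the determinants of the scalar multiples
  have o1 : (((PowerSeries.X : k⟦X⟧) ^ c • (1 : Matrix μ μ k⟦X⟧)).det.order.toNat : ℤ)
      = (c : ℤ) * Fintype.card μ := by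
    rw [Matrix.det_smul, Matrix.det_one, mul_one, ← pow_mul, PowerSeries.order_X_pow]
    simp
  have o2 : ((((PowerSeries.X : k⟦X⟧) • H).det.order.toNat : ℕ) : ℤ)
      = (Fintype.card μ : ℤ) + H.det.order.toNat := by
    rw [Matrix.det_smul, PowerSeries.order_mul, PowerSeries.order_X_pow]
    have hfin : H.det.order ≠ ⊤ := by rwa [Ne, PowerSeries.order_eq_top]
    rw [ENat.toNat_add (by simp) hfin]
    simp
  rw [o1, o2, hord]
  ring

/-- Lower bound without any duality: `dim ker ≥ card μ + ord det G`. -/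
theorem card_add_order_le_finrank_ker (hξ : ξ.order = -1) (G : Matrix μ μ (LaurentSeries k))
    (hG : G.det ≠ 0) :
    (Fintype.card μ : ℤ) + G.det.order ≤ finrank k (LinearMap.ker (phi ξ G)) := by
  obtain ⟨_, h⟩ := phi_isFredholm_and_ind hξ G hG
  unfold ind at h
  have : (0 : ℤ) ≤ finrank k (QW k μ ⧸ LinearMap.range (phi ξ G)) := Int.natCast_nonneg _
  omega

/-- The `h¹`: `dim coker = dim ker - card μ - ord det G`. -/
theorem finrank_coker_phi (hξ : ξ.order = -1) (G : Matrix μ μ (LaurentSeries k))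
    (hG : G.det ≠ 0) :
    (finrank k (QW k μ ⧸ LinearMap.range (phi ξ G)) : ℤ)
      = finrank k (LinearMap.ker (phi ξ G)) - Fintype.card μ - G.det.order := by
  obtain ⟨_, h⟩ := phi_isFredholm_and_ind hξ G hG
  unfold ind at h
  omega

end main

end lattice

end Fermat.Agent.S20_helper8
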